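import Fermat.Agent.LT.T6.H865.TwEllSpec

/-!
# Row LT, tower T6, leaf T6.13.3b.8 `CongFixC865` (registry 1325): PROVED (helper864)

OFF-MAIN.  `congFixC864 : Fermat.Agent.LT.T6.H865.CongFixC865`, VERBATIM against
`LT/T6/H865/TwEllSpec.lean` (helper865, sha256 ce4fd7ce0a273736, byte-identical copy).

`g = c₀ (1 + ϖ^r m) ∈ GL₂(𝒪)` fixes the ball of radius `r` around `[1]` pointwise:
`x = u d u'` (Cartan, `d = diag(a, b)`, `v a = v b · exp n`, `n = cdist x ≤ r`), `g₁ = u⁻¹ g u`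
is again `c₀ (1 + ϖ^r m₁)`, so `v (g₁ 1 0) ≤ exp (-r)` (for `r ≥ 1`: `v c₀ ≤ 1`), and
`d⁻¹ g₁ d ∈ GL₂(𝒪)`.
-/

set_option autoImplicit false
set_option linter.unusedSectionVars false

open scoped Matrix

noncomputable section

namespace Fermat.Agent.LT.T6.H864

open Fermat.Agent.LT.T6 Fermat.Agent.LT.H129 Fermat.Agent.LT.T6.H340

variable {k : Type} [Field k] [Valued k Γ₀]

theorem exp_neg_mul_exp864 (n : ℕ) :
    (WithZero.exp (-(n : ℤ)) : Γ₀) * WithZero.exp ((n : ℕ) : ℤ) = 1 := by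
  rw [← WithZero.exp_add]
  simp

/-- The determinant of an element of `GL₂(𝒪)` is a unit. -/
theorem vdet_eq_one864 {g : GL (Fin 2) k} (hg : InU 0 g) :
    Valued.v (g : Matrix (Fin 2) (Fin 2) k).det = 1 := by
  rw [inU_zero_iff129] at hg
  have h1 : Valued.v (g : Matrix (Fin 2) (Fin 2) k).det ≤ 1 := det_mem_of_isInt129 hg.1
  have h2 : Valued.v ((g⁻¹ : GL (Fin 2) k) : Matrix (Fin 2) (Fin 2) k).det ≤ 1 :=
    det_mem_of_isInt129 hg.2
  have h3 : (g : Matrix (Fin 2) (Fin 2) k).det *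
      ((g⁻¹ : GL (Fin 2) k) : Matrix (Fin 2) (Fin 2) k).det = 1 := by
    rw [← Matrix.det_mul, ← Matrix.GeneralLinearGroup.coe_mul, mul_inv_cancel]
    simp
  have h4 : Valued.v (g : Matrix (Fin 2) (Fin 2) k).det *
      Valued.v ((g⁻¹ : GL (Fin 2) k) : Matrix (Fin 2) (Fin 2) k).det = 1 := by
    rw [← map_mul, h3, map_one]
  refine le_antisymm h1 ?_
  calc (1 : Γ₀) = Valued.v (g : Matrix (Fin 2) (Fin 2) k).det *
        Valued.v ((g⁻¹ : GL (Fin 2) k) : Matrix (Fin 2) (Fin 2) k).det := h4.symm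
    _ ≤ Valued.v (g : Matrix (Fin 2) (Fin 2) k).det * 1 := mul_le_mul' le_rfl h2
    _ = Valued.v (g : Matrix (Fin 2) (Fin 2) k).det := mul_one _

/-- The lower left entry of the inverse of an element of `GL₂(𝒪)`. -/
theorem v_inv_lower864 {g : GL (Fin 2) k} (hg : InU 0 g) :
    Valued.v (((g⁻¹ : GL (Fin 2) k) : Matrix (Fin 2) (Fin 2) k) 1 0) =
      Valued.v ((g : Matrix (Fin 2) (Fin 2) k) 1 0) := by
  have hd := vdet_eq_one864 hg
  rw [Matrix.coe_units_inv, Matrix.inv_def, Matrix.adjugate_fin_two, Matrix.smul_apply]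
  simp only [Matrix.of_apply, Matrix.cons_val', Matrix.cons_val_one, Matrix.cons_val_zero,
    Matrix.cons_val_fin_one, smul_eq_mul]
  rw [map_mul, Valuation.map_neg, Ring.inverse_eq_inv', map_inv₀, hd, inv_one, one_mul]

/-- Conjugation by `diag(a, b)`, entrywise. -/
theorem conj_diag_apply864 {a b : k} (ha : a ≠ 0) (hb : b ≠ 0) (h : GL (Fin 2) k) :
    (((diag129 a b ha hb)⁻¹ * h * diag129 a b ha hb : GL (Fin 2) k) :
      Matrix (Fin 2) (Fin 2) k) =
      !![(h : Matrix (Fin 2) (Fin 2) k) 0 0, a⁻¹ * (h : Matrix (Fin 2) (Fin 2) k) 0 1 * b;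
         b⁻¹ * (h : Matrix (Fin 2) (Fin 2) k) 1 0 * a, (h : Matrix (Fin 2) (Fin 2) k) 1 1] := by
  rw [diag129_inv340, Matrix.GeneralLinearGroup.coe_mul, Matrix.GeneralLinearGroup.coe_mul]
  ext i j
  fin_cases i <;> fin_cases j
  · simp [diag129, Matrix.mul_apply, Fin.sum_univ_two, Matrix.vecMul, dotProduct]
    field_simp
  · simp [diag129, Matrix.mul_apply, Fin.sum_univ_two, Matrix.vecMul, dotProduct]
  · simp [diag129, Matrix.mul_apply, Fin.sum_univ_two, Matrix.vecMul, dotProduct]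
  · simp [diag129, Matrix.mul_apply, Fin.sum_univ_two, Matrix.vecMul, dotProduct]
    field_simp

/-- Conjugation by `diag(a, b)` keeps integrality when the lower left entry is small. -/
theorem isInt_conj_diag864 {a b : k} (ha : a ≠ 0) (hb : b ≠ 0) {n : ℕ}
    (hab : Valued.v a = Valued.v b * WithZero.exp ((n : ℕ) : ℤ)) {h : GL (Fin 2) k}
    (hint : IsInt129 (vO129 k) h)
    (hlow : Valued.v ((h : Matrix (Fin 2) (Fin 2) k) 1 0) * WithZero.exp ((n : ℕ) : ℤ) ≤ 1) :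
    IsInt129 (vO129 k) ((diag129 a b ha hb)⁻¹ * h * diag129 a b ha hb) := by
  have hvb : Valued.v b ≠ 0 := by rwa [ne_eq, map_eq_zero]
  have hva : Valued.v a ≠ 0 := by rwa [ne_eq, map_eq_zero]
  have hen : (1 : Γ₀) ≤ WithZero.exp ((n : ℕ) : ℤ) := by
    rw [← WithZero.exp_zero, WithZero.exp_le_exp]
    exact Int.natCast_nonneg n
  intro i j
  rw [conj_diag_apply864 ha hb h, mem_vO129]
  fin_cases i <;> fin_cases j
  · exact hint 0 0
  · simp only [Fin.zero_eta, Fin.mk_one, Matrix.of_apply, Matrix.cons_val', Matrix.cons_val_zero,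
      Matrix.cons_val_one, Matrix.cons_val_fin_one]
    rw [map_mul, map_mul, map_inv₀, hab]
    have h01 : Valued.v ((h : Matrix (Fin 2) (Fin 2) k) 0 1) ≤ 1 := hint 0 1
    calc (Valued.v b * WithZero.exp ((n : ℕ) : ℤ))⁻¹ * Valued.v ((h : Matrix (Fin 2) (Fin 2) k) 0 1)
          * Valued.v b
        ≤ (Valued.v b * WithZero.exp ((n : ℕ) : ℤ))⁻¹ * 1 * Valued.v b :=
          mul_le_mul' (mul_le_mul' le_rfl h01) le_rfl
      _ = (WithZero.exp ((n : ℕ) : ℤ))⁻¹ := by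
          rw [mul_one, mul_inv, mul_comm (Valued.v b)⁻¹, mul_assoc, inv_mul_cancel₀ hvb, mul_one]
      _ ≤ 1 := by
          rw [← WithZero.exp_neg, ← WithZero.exp_zero, WithZero.exp_le_exp]
          simp
  · simp only [Fin.zero_eta, Fin.mk_one, Matrix.of_apply, Matrix.cons_val', Matrix.cons_val_zero,
      Matrix.cons_val_one, Matrix.cons_val_fin_one]
    rw [map_mul, map_mul, map_inv₀, hab]
    calc (Valued.v b)⁻¹ * Valued.v ((h : Matrix (Fin 2) (Fin 2) k) 1 0) *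
          (Valued.v b * WithZero.exp ((n : ℕ) : ℤ))
        = ((Valued.v b)⁻¹ * Valued.v b) *
            (Valued.v ((h : Matrix (Fin 2) (Fin 2) k) 1 0) * WithZero.exp ((n : ℕ) : ℤ)) := by
          ac_rfl
      _ = Valued.v ((h : Matrix (Fin 2) (Fin 2) k) 1 0) * WithZero.exp ((n : ℕ) : ℤ) := by
          rw [inv_mul_cancel₀ hvb, one_mul]
      _ ≤ 1 := hlow
  · exact hint 1 1

/-- Conjugation by `diag(a, b)` keeps `GL₂(𝒪)` when the lower left entry is small. -/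
theorem inU_conj_diag864 {a b : k} (ha : a ≠ 0) (hb : b ≠ 0) {n : ℕ}
    (hab : Valued.v a = Valued.v b * WithZero.exp ((n : ℕ) : ℤ)) {h : GL (Fin 2) k}
    (hh : InU 0 h)
    (hlow : Valued.v ((h : Matrix (Fin 2) (Fin 2) k) 1 0) * WithZero.exp ((n : ℕ) : ℤ) ≤ 1) :
    InU 0 ((diag129 a b ha hb)⁻¹ * h * diag129 a b ha hb) := by
  have hh' := (inU_zero_iff129 h).1 hh
  rw [inU_zero_iff129]
  refine ⟨isInt_conj_diag864 ha hb hab hh'.1 hlow, ?_⟩
  have e : ((diag129 a b ha hb)⁻¹ * h * diag129 a b ha hb)⁻¹ =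
      (diag129 a b ha hb)⁻¹ * h⁻¹ * diag129 a b ha hb := by group
  rw [e]
  refine isInt_conj_diag864 ha hb hab hh'.2 ?_
  rw [v_inv_lower864 hh]
  exact hlow

/-- Entries of a product of three integral matrices. -/
theorem v_mul3_le864 {A B C : Matrix (Fin 2) (Fin 2) k} (hA : ∀ i j, Valued.v (A i j) ≤ 1)
    (hB : ∀ i j, Valued.v (B i j) ≤ 1) (hC : ∀ i j, Valued.v (C i j) ≤ 1) (i j : Fin 2) :
    Valued.v ((A * B * C) i j) ≤ 1 := by
  rw [Matrix.mul_apply]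
  refine Valuation.map_sum_le _ fun l _ => ?_
  rw [Matrix.mul_apply, Finset.sum_mul]
  refine Valuation.map_sum_le _ fun p _ => ?_
  rw [map_mul, map_mul]
  calc Valued.v (A i p) * Valued.v (B p l) * Valued.v (C l j) ≤ 1 * 1 * 1 :=
        mul_le_mul' (mul_le_mul' (hA i p) (hB p l)) (hC l j)
    _ = 1 := by rw [one_mul, one_mul]

/-- The lower left entry of `u⁻¹ g u` for `g = c₀ (1 + ϖ^r m)`, `r ≥ 1`. -/
theorem v_lower_conj864 {ϖ c₀ : k} {r : ℕ} (hr : 1 ≤ r) {g u : GL (Fin 2) k}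
    {m : Matrix (Fin 2) (Fin 2) k} (hϖ : Valued.v ϖ = WithZero.exp (-1 : ℤ)) (hg : InU 0 g)
    (hu : InU 0 u) (hm : ∀ b c, Valued.v (m b c) ≤ 1)
    (hgm : (g : Matrix (Fin 2) (Fin 2) k) = c₀ • ((1 : Matrix (Fin 2) (Fin 2) k) + ϖ ^ r • m)) :
    Valued.v (((u⁻¹ * g * u : GL (Fin 2) k) : Matrix (Fin 2) (Fin 2) k) 1 0) ≤
      WithZero.exp (-(r : ℤ)) := by
  have hu' := (inU_zero_iff129 u).1 hu
  have hg' := (inU_zero_iff129 g).1 hg
  have hvϖr : Valued.v (ϖ ^ r) = WithZero.exp (-(r : ℤ)) := by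
    rw [map_pow, hϖ, ← WithZero.exp_nsmul]
    simp
  have hlt : (WithZero.exp (-(r : ℤ)) : Γ₀) < 1 := by
    rw [← WithZero.exp_zero, WithZero.exp_lt_exp]
    omega
  -- `v c₀ ≤ 1`
  have hc₀ : Valued.v c₀ ≤ 1 := by
    have h00 : (g : Matrix (Fin 2) (Fin 2) k) 0 0 = c₀ * (1 + ϖ ^ r * m 0 0) := by
      rw [hgm]
      simp
    have h1 : Valued.v (ϖ ^ r * m 0 0) < 1 := by
      rw [map_mul, hvϖr]
      calc WithZero.exp (-(r : ℤ)) * Valued.v (m 0 0) ≤ WithZero.exp (-(r : ℤ)) * 1 :=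
            mul_le_mul' le_rfl (hm 0 0)
        _ = WithZero.exp (-(r : ℤ)) := mul_one _
        _ < 1 := hlt
    have h2 : Valued.v (1 + ϖ ^ r * m 0 0) = 1 := by
      have := Valuation.map_add_eq_of_lt_left (Valued.v : Valuation k Γ₀)
        (x := (1 : k)) (y := ϖ ^ r * m 0 0) (by rw [map_one]; exact h1)
      rw [this, map_one]
    have h3 : Valued.v ((g : Matrix (Fin 2) (Fin 2) k) 0 0) ≤ 1 := hg'.1 0 0
    rw [h00, map_mul, h2, mul_one] at h3
    exact h3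
  -- the conjugate
  have e : ((u⁻¹ * g * u : GL (Fin 2) k) : Matrix (Fin 2) (Fin 2) k) =
      c₀ • ((1 : Matrix (Fin 2) (Fin 2) k) + ϖ ^ r •
        (((u⁻¹ : GL (Fin 2) k) : Matrix (Fin 2) (Fin 2) k) * m *
          (u : Matrix (Fin 2) (Fin 2) k))) := by
    have h1 : ((u⁻¹ : GL (Fin 2) k) : Matrix (Fin 2) (Fin 2) k) *
        (u : Matrix (Fin 2) (Fin 2) k) = 1 := by
      rw [← Matrix.GeneralLinearGroup.coe_mul, inv_mul_cancel]; rfl
    rw [Matrix.GeneralLinearGroup.coe_mul, Matrix.GeneralLinearGroup.coe_mul, hgm,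
      Matrix.mul_smul, Matrix.smul_mul, Matrix.mul_add, Matrix.add_mul, Matrix.mul_one, h1,
      Matrix.mul_smul, Matrix.smul_mul]
  rw [e]
  simp only [Matrix.smul_apply, Matrix.add_apply, smul_eq_mul, ne_eq, one_ne_zero,
    not_false_eq_true, Matrix.one_apply_ne, zero_add]
  rw [map_mul, map_mul, hvϖr]
  have hM := v_mul3_le864 (A := ((u⁻¹ : GL (Fin 2) k) : Matrix (Fin 2) (Fin 2) k)) (B := m)
    (C := (u : Matrix (Fin 2) (Fin 2) k)) (fun i j => hu'.2 i j) hm (fun i j => hu'.1 i j) 1 0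
  calc Valued.v c₀ * (WithZero.exp (-(r : ℤ)) *
        Valued.v ((((u⁻¹ : GL (Fin 2) k) : Matrix (Fin 2) (Fin 2) k) * m *
          (u : Matrix (Fin 2) (Fin 2) k)) 1 0))
      ≤ 1 * (WithZero.exp (-(r : ℤ)) * 1) := mul_le_mul' hc₀ (mul_le_mul' le_rfl hM)
    _ = WithZero.exp (-(r : ℤ)) := by rw [one_mul, mul_one]

/-- **T6.13.3b.8 = `H865.CongFixC865`.** -/
theorem congFixC864 : Fermat.Agent.LT.T6.H865.CongFixC865 := by
  intro k _ _ q _ ϖ c₀ r g m hϖ hg hm hgm x hx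
  obtain ⟨u, u', a, b, ha, hb, hu, hu', hxd, hv⟩ := exists_decomp340 x
  have e : x⁻¹ * g * x =
      u'⁻¹ * ((diag129 a b ha hb)⁻¹ * (u⁻¹ * g * u) * diag129 a b ha hb) * u' := by
    conv_lhs => rw [hxd]
    group
  rw [e, cdist340_mul_right _ hu', cdist340_mul_left _ (inU_zero_inv129 hu')]
  apply cdist340_of_inU
  have hg₁ : InU 0 (u⁻¹ * g * u) := inU_zero_mul129 (inU_zero_mul129 (inU_zero_inv129 hu) hg) hu
  refine inU_conj_diag864 ha hb hv hg₁ ?_
  by_cases hn : cdist340 x = 0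
  · rw [hn]
    simp only [CharP.cast_eq_zero, WithZero.exp_zero, mul_one]
    exact ((inU_zero_iff129 _).1 hg₁).1 1 0
  · have hr : 1 ≤ r := by omega
    have h1 := v_lower_conj864 hr hϖ hg hu hm hgm
    calc Valued.v (((u⁻¹ * g * u : GL (Fin 2) k) : Matrix (Fin 2) (Fin 2) k) 1 0) *
          WithZero.exp ((cdist340 x : ℕ) : ℤ)
        ≤ WithZero.exp (-(r : ℤ)) * WithZero.exp ((r : ℕ) : ℤ) := by
          refine mul_le_mul' h1 ?_
          rw [WithZero.exp_le_exp]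
          exact_mod_cast hx
      _ = 1 := exp_neg_mul_exp864 r

end Fermat.Agent.LT.T6.H864

end
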